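import Mathlib
import Fermat.Agent.Lib.Ribet.H223.BLRCore
import Fermat.Agent.S32.H152.EmbCoord

/-!
# S59 / NMP-LGC — the algebraic GLUE of Eichler–Shimura at `p` (helper43)

Abstract form (any group `G`, any domain `𝒪` with `2 ≠ 0`):

* `V` free of rank two with `ρ : G →* End V`, `𝒪[G] → End V` onto (absolute irreducibility);
* a line `L = 𝒪 ∙ b' 0` (`b'` a basis), a subgroup `I` acting trivially on `V / L`, an element
  `φ` acting on `V / L` by the scalar `α`, an element `τ₀ ∈ I` with `det ρ(τ₀) ≠ 1`;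
* `M ≠ 0` finite free with `ρM : G →* End M` on which every `g` satisfies the characteristic
  polynomial of `ρ g` (REL), and on which
  `(φ² - b φ + q) M ⊆ ⟨σ m - m : σ ∈ I⟩`   (CORE: Eichler–Shimura at `p` modulo inertia).

Then `α² - b α + q = 0`  (`eig_glue_abstract_h43`).

Proof: Boston–Lenstra–Ribet over `K = Frac 𝒪` (`Lib.Ribet.H223.blr_ker`,
`blr_exists_embedding`): a group-algebra identity holds on `V` iff it holds on `M`.
`(τ₀ - det τ₀)(σ - 1) = 0` on `V`, hence on `M`; so `(τ₀ - det τ₀)(φ² - b φ + q) = 0` on `M`,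
hence on `V`; read off the coefficient of `b' 1`.
-/

set_option autoImplicit false
set_option linter.unusedSectionVars false

noncomputable section

namespace Fermat.Agent.S59.NMP.H43

open Fermat.Agent.S32.H152 Fermat.Agent.Lib.Ribet.H223

/-- `embEnd` is injective when `f` is. -/
theorem embEnd_injective_h43 {R K : Type*} [CommRing R] [Field K] (f : R →+* K)
    (hf : Function.Injective f) {n : Type*} [Fintype n] [DecidableEq n] {V : Type*}
    [AddCommGroup V] [Module R V] (b : Module.Basis n R V) :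
    Function.Injective (embEnd f b) := by
  intro E E' h
  refine LinearMap.ext fun v => ?_
  apply embCoord_injective f b hf
  rw [← embEnd_coord f b E v, ← embEnd_coord f b E' v, h]

/-- The determinant of an endomorphism which is upper triangular unipotent-on-the-quotient with
respect to the line `𝒪 ∙ b' 0`: it acts on `b' 0` by its determinant. -/
theorem apply_basis_zero_eq_det_smul_h43 {𝒪 : Type*} [CommRing 𝒪] {V : Type*} [AddCommGroup V]
    [Module 𝒪 V] (b' : Module.Basis (Fin 2) 𝒪 V) (T : Module.End 𝒪 V)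
    (hT : ∀ v, T v - v ∈ Submodule.span 𝒪 {b' 0}) :
    T (b' 0) = LinearMap.det T • b' 0 := by
  obtain ⟨t0, ht0⟩ := Submodule.mem_span_singleton.mp (hT (b' 0))
  obtain ⟨t1, ht1⟩ := Submodule.mem_span_singleton.mp (hT (b' 1))
  have h0 : T (b' 0) = (t0 + 1) • b' 0 := by
    rw [add_smul, one_smul, ht0]
    abel
  have h1 : T (b' 1) = b' 1 + t1 • b' 0 := by
    rw [ht1]
    abel
  have hdet : LinearMap.det T = t0 + 1 := by
    rw [← LinearMap.det_toMatrix b', Matrix.det_fin_two]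
    simp only [LinearMap.toMatrix_apply, h0, h1, map_add, map_smul, Module.Basis.repr_self,
      Finsupp.add_apply, Finsupp.smul_apply, Finsupp.single_apply, smul_eq_mul]
    simp
  rw [hdet, h0]

/-- **GLUE (abstract).** -/
theorem eig_glue_abstract_h43
    {𝒪 : Type*} [CommRing 𝒪] [IsDomain 𝒪] (h2 : (2 : 𝒪) ≠ 0)
    {G : Type*} [Group G]
    {V : Type*} [AddCommGroup V] [Module 𝒪 V]
    (ρ : G →* Module.End 𝒪 V) (hspan : Submodule.span 𝒪 (Set.range ρ) = ⊤)
    {M : Type*} [AddCommGroup M] [Module 𝒪 M] [Module.Free 𝒪 M] [Module.Finite 𝒪 M]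
    [Nontrivial M] (ρM : G →* Module.End 𝒪 M)
    (hrel : ∀ g, ρM g * ρM g - LinearMap.trace 𝒪 V (ρ g) • ρM g
      + LinearMap.det (ρ g) • (1 : Module.End 𝒪 M) = 0)
    (I : Subgroup G) (φ : G) (α b q : 𝒪)
    (b' : Module.Basis (Fin 2) 𝒪 V)
    (hI : ∀ σ ∈ I, ∀ v, ρ σ v - v ∈ Submodule.span 𝒪 {b' 0})
    (hφ : ∀ v, ρ φ v - α • v ∈ Submodule.span 𝒪 {b' 0})
    (τ₀ : G) (hτ₀ : τ₀ ∈ I) (hdet : LinearMap.det (ρ τ₀) ≠ 1)
    (hcore : ∀ m : M, (ρM φ * ρM φ - b • ρM φ + q • (1 : Module.End 𝒪 M)) m ∈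
      Submodule.span 𝒪 {x | ∃ σ ∈ I, ∃ m : M, x = ρM σ m - m}) :
    α ^ 2 - b * α + q = 0 := by
  classical
  set K := FractionRing 𝒪 with hK
  set ι : 𝒪 →+* K := algebraMap 𝒪 K with hιdef
  have hι : Function.Injective ι := IsFractionRing.injective 𝒪 K
  set c := Module.Free.chooseBasis 𝒪 M with hc
  set cd : 𝒪 := LinearMap.det (ρ τ₀) with hcd
  -- the two representations over `K`
  set ρ₀ : G →* Module.End K (Fin 2 → K) :=
    ((embEnd ι b' : Module.End 𝒪 V →+* _) : Module.End 𝒪 V →* _).comp ρ with hρ₀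
  set π : G →* Module.End K (Module.Free.ChooseBasisIndex 𝒪 M → K) :=
    ((embEnd ι c : Module.End 𝒪 M →+* _) : Module.End 𝒪 M →* _).comp ρM with hπdef
  set d : G →* K := (ι : 𝒪 →* K).comp ((LinearMap.det : Module.End 𝒪 V →* 𝒪).comp ρ) with hd
  have hρ₀g : ∀ g, ρ₀ g = embEnd ι b' (ρ g) := fun g => rfl
  have hπg : ∀ g, π g = embEnd ι c (ρM g) := fun g => rfl
  have hdg : ∀ g, d g = ι (LinearMap.det (ρ g)) := fun g => rfl
  have hK2 : (2 : K) ≠ 0 := by
    intro h0
    apply h2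
    apply hι
    rw [map_zero, map_ofNat]
    exact h0
  have hfin2 : Module.finrank K (Fin 2 → K) = 2 := by simp
  -- surjectivity of `K[G] → End (K²)`
  have hsurj : Function.Surjective (MonoidAlgebra.lift K (Module.End K (Fin 2 → K)) G ρ₀) := by
    set A₀ := (MonoidAlgebra.lift K (Module.End K (Fin 2 → K)) G ρ₀).range with hA₀
    have hg : ∀ g, ρ₀ g ∈ A₀ := fun g =>
      ⟨MonoidAlgebra.of K G g, MonoidAlgebra.lift_of _ _⟩
    have hall : ∀ E : Module.End 𝒪 V, embEnd ι b' E ∈ A₀ := by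
      intro E
      have hE : E ∈ Submodule.span 𝒪 (Set.range ρ) := by
        rw [hspan]
        exact Submodule.mem_top
      induction hE using Submodule.span_induction with
      | mem x hx =>
        obtain ⟨g, rfl⟩ := hx
        exact hg g
      | zero =>
        rw [map_zero]
        exact zero_mem _
      | add x y _ _ hx hy =>
        rw [map_add]
        exact add_mem hx hy
      | smul t x _ hx =>
        rw [embEnd_smul]
        exact Subalgebra.smul_mem _ hx _
    intro y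
    have hy : y ∈ A₀ := by
      obtain ⟨Y, rfl⟩ := (Matrix.toLinAlgEquiv' : Matrix (Fin 2) (Fin 2) K ≃ₐ[K] _).surjective y
      rw [Matrix.matrix_eq_sum_single Y]
      simp only [map_sum]
      refine Subalgebra.sum_mem _ fun i _ => Subalgebra.sum_mem _ fun j _ => ?_
      have e1 : (Matrix.single i j (Y i j) : Matrix (Fin 2) (Fin 2) K)
          = Y i j • Matrix.single i j (1 : K) := by
        rw [Matrix.smul_single, smul_eq_mul, mul_one]
      rw [e1, map_smul]
      refine Subalgebra.smul_mem _ ?_ _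
      have e2 := embEnd_single ι b' i j
      have e3 : (Matrix.toLinAlgEquiv' : Matrix (Fin 2) (Fin 2) K ≃ₐ[K] _)
          (Matrix.single i j (1 : K)) = Matrix.toLin' (Matrix.single i j (1 : K)) := rfl
      rw [e3, ← e2]
      exact hall _
    exact hy
  -- the quadratic relations
  have hπ : ∀ g, π g * π g - LinearMap.trace K (Fin 2 → K) (ρ₀ g) • π g + d g • 1 = 0 := by
    intro g
    have h := congrArg (embEnd ι c) (hrel g)
    rw [map_zero, map_add, map_sub, map_mul, embEnd_smul, embEnd_smul, map_one] at h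
    rw [hπg, hρ₀g, embEnd_trace, hdg]
    exact h
  have : Nonempty (Module.Free.ChooseBasisIndex 𝒪 M) := by
    by_contra hne
    rw [not_nonempty_iff] at hne
    obtain ⟨x, y, hxy⟩ := exists_pair_ne M
    apply hxy
    apply c.repr.injective
    ext j
    exact (hne.false j).elim
  have : Nontrivial (Module.Free.ChooseBasisIndex 𝒪 M → K) := inferInstance
  have hker := blr_ker hK2 ρ₀ π d (LinearMap.trace K (Fin 2 → K)) hπ hsurj
    (exists_commutator_sq_eq_one hfin2)
  obtain ⟨φ₀, hφ₀inj, hφ₀eq⟩ := blr_exists_embedding hK2 hfin2 ρ₀ π d hsurj hπ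
  -- Step 4: the identity `(τ₀ - cd)(σ - 1) = 0` on `V`
  have hτb0 : ρ τ₀ (b' 0) = cd • b' 0 :=
    apply_basis_zero_eq_det_smul_h43 b' (ρ τ₀) (hI τ₀ hτ₀)
  have hV : ∀ σ ∈ I, (ρ τ₀ - cd • (1 : Module.End 𝒪 V)) * (ρ σ - 1) = 0 := by
    intro σ hσ
    refine LinearMap.ext fun v => ?_
    obtain ⟨t, ht⟩ := Submodule.mem_span_singleton.mp (hI σ hσ v)
    simp only [Module.End.mul_apply, LinearMap.sub_apply, LinearMap.smul_apply,
      Module.End.one_apply, LinearMap.zero_apply]
    rw [← ht, map_smul, hτb0, smul_comm, sub_self]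
  -- Step 5: transfer to `M`
  have hM : ∀ σ ∈ I, (ρM τ₀ - cd • (1 : Module.End 𝒪 M)) * (ρM σ - 1) = 0 := by
    intro σ hσ
    apply embEnd_injective_h43 ι hι c
    have hVK : (ρ₀ τ₀ - ι cd • 1) * (ρ₀ σ - 1) = 0 := by
      have h := congrArg (embEnd ι b') (hV σ hσ)
      simpa only [map_zero, map_mul, map_sub, embEnd_smul, map_one, hρ₀g] using h
    have hu := hker ((MonoidAlgebra.of K G τ₀ - ι cd • 1) * (MonoidAlgebra.of K G σ - 1)) (by
      simpa only [map_mul, map_sub, map_smul, map_one, MonoidAlgebra.lift_of] using hVK)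
    have hu' : (π τ₀ - ι cd • 1) * (π σ - 1) = 0 := by
      simpa only [map_mul, map_sub, map_smul, map_one, MonoidAlgebra.lift_of] using hu
    simpa only [map_zero, map_mul, map_sub, embEnd_smul, map_one, hπg] using hu'
  -- Step 6: `(τ₀ - cd)` kills the augmentation span, hence `(τ₀ - cd) c(φ) = 0` on `M`
  have hkill : ∀ x ∈ Submodule.span 𝒪 {x | ∃ σ ∈ I, ∃ m : M, x = ρM σ m - m},
      (ρM τ₀ - cd • (1 : Module.End 𝒪 M)) x = 0 := by
    intro x hx
    induction hx using Submodule.span_induction with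
    | mem x hx =>
      obtain ⟨σ, hσ, m, rfl⟩ := hx
      have h := congrArg (fun E : Module.End 𝒪 M => E m) (hM σ hσ)
      simpa only [Module.End.mul_apply, LinearMap.sub_apply, Module.End.one_apply,
        LinearMap.zero_apply] using h
    | zero => exact map_zero _
    | add x y _ _ hx hy => rw [map_add, hx, hy, add_zero]
    | smul t x _ hx => rw [map_smul, hx, smul_zero]
  have hMc : (ρM τ₀ - cd • (1 : Module.End 𝒪 M)) *
      (ρM φ * ρM φ - b • ρM φ + q • (1 : Module.End 𝒪 M)) = 0 := by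
    refine LinearMap.ext fun m => ?_
    rw [Module.End.mul_apply, LinearMap.zero_apply]
    exact hkill _ (hcore m)
  -- Step 7: transfer back to `V`
  have hI1 : ∀ x, φ₀ ((1 : Module.End K (Fin 2 → K)) x) =
      (1 : Module.End K (Module.Free.ChooseBasisIndex 𝒪 M → K)) (φ₀ x) := fun x => rfl
  have hmul : ∀ (E F : Module.End K (Fin 2 → K))
      (E' F' : Module.End K (Module.Free.ChooseBasisIndex 𝒪 M → K)),
      (∀ x, φ₀ (E x) = E' (φ₀ x)) → (∀ x, φ₀ (F x) = F' (φ₀ x)) →
      ∀ x, φ₀ ((E * F) x) = (E' * F') (φ₀ x) := by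
    intro E F E' F' hE hF x
    rw [Module.End.mul_apply, hE, hF, Module.End.mul_apply]
  have hadd : ∀ (E F : Module.End K (Fin 2 → K))
      (E' F' : Module.End K (Module.Free.ChooseBasisIndex 𝒪 M → K)),
      (∀ x, φ₀ (E x) = E' (φ₀ x)) → (∀ x, φ₀ (F x) = F' (φ₀ x)) →
      ∀ x, φ₀ ((E + F) x) = (E' + F') (φ₀ x) := by
    intro E F E' F' hE hF x
    rw [LinearMap.add_apply, map_add, hE, hF, LinearMap.add_apply]
  have hsub : ∀ (E F : Module.End K (Fin 2 → K))
      (E' F' : Module.End K (Module.Free.ChooseBasisIndex 𝒪 M → K)),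
      (∀ x, φ₀ (E x) = E' (φ₀ x)) → (∀ x, φ₀ (F x) = F' (φ₀ x)) →
      ∀ x, φ₀ ((E - F) x) = (E' - F') (φ₀ x) := by
    intro E F E' F' hE hF x
    rw [LinearMap.sub_apply, map_sub, hE, hF, LinearMap.sub_apply]
  have hsmul : ∀ (k : K) (E : Module.End K (Fin 2 → K))
      (E' : Module.End K (Module.Free.ChooseBasisIndex 𝒪 M → K)),
      (∀ x, φ₀ (E x) = E' (φ₀ x)) → ∀ x, φ₀ ((k • E) x) = (k • E') (φ₀ x) := by
    intro k E E' hE x
    rw [LinearMap.smul_apply, map_smul, hE, LinearMap.smul_apply]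
  have hMK : (π τ₀ - ι cd • 1) * (π φ * π φ - ι b • π φ + ι q • 1) = 0 := by
    have h := congrArg (embEnd ι c) hMc
    simpa only [map_zero, map_mul, map_sub, map_add, embEnd_smul, map_one, hπg] using h
  have hVc : (ρ τ₀ - cd • (1 : Module.End 𝒪 V)) *
      (ρ φ * ρ φ - b • ρ φ + q • (1 : Module.End 𝒪 V)) = 0 := by
    apply embEnd_injective_h43 ι hι b'
    have hVK : embEnd ι b' ((ρ τ₀ - cd • (1 : Module.End 𝒪 V)) *
        (ρ φ * ρ φ - b • ρ φ + q • (1 : Module.End 𝒪 V))) =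
        (ρ₀ τ₀ - ι cd • 1) * (ρ₀ φ * ρ₀ φ - ι b • ρ₀ φ + ι q • 1) := by
      simp only [map_mul, map_sub, map_add, embEnd_smul, map_one, hρ₀g]
    rw [hVK, map_zero]
    refine LinearMap.ext fun x => ?_
    apply hφ₀inj
    have hA := hmul _ _ _ _ (hsub _ _ _ _ (hφ₀eq τ₀) (hsmul (ι cd) _ _ hI1))
      (hadd _ _ _ _ (hsub _ _ _ _ (hmul _ _ _ _ (hφ₀eq φ) (hφ₀eq φ))
        (hsmul (ι b) _ _ (hφ₀eq φ))) (hsmul (ι q) _ _ hI1)) x
    rw [hA, hMK, LinearMap.zero_apply, LinearMap.zero_apply, map_zero]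
  -- Step 8: read off the coefficient of `b' 1`
  set ξ : V →ₗ[𝒪] 𝒪 := b'.coord 1 with hξ
  have hξL : ∀ y ∈ Submodule.span 𝒪 {b' 0}, ξ y = 0 := by
    intro y hy
    obtain ⟨t, rfl⟩ := Submodule.mem_span_singleton.mp hy
    rw [map_smul, hξ, Module.Basis.coord_apply, Module.Basis.repr_self]
    simp
  have hξφ : ∀ v, ξ (ρ φ v) = α * ξ v := by
    intro v
    have h := hξL _ (hφ v)
    rw [map_sub, map_smul, smul_eq_mul, sub_eq_zero] at h
    exact h
  have hξτ : ∀ v, ξ (ρ τ₀ v) = ξ v := by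
    intro v
    have h := hξL _ (hI τ₀ hτ₀ v)
    rw [map_sub, sub_eq_zero] at h
    exact h
  have hξ1 : ξ (b' 1) = 1 := by
    rw [hξ, Module.Basis.coord_apply, Module.Basis.repr_self]
    simp
  have hfinal := congrArg (fun E : Module.End 𝒪 V => ξ (E (b' 1))) hVc
  simp only [Module.End.mul_apply, LinearMap.sub_apply, LinearMap.add_apply,
    LinearMap.smul_apply, Module.End.one_apply, LinearMap.zero_apply, map_sub, map_add,
    map_smul, map_zero, hξτ, hξφ, hξ1, smul_eq_mul, mul_one] at hfinal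
  have hfac : (1 - cd) * (α ^ 2 - b * α + q) = 0 := by
    rw [← hfinal]
    ring
  rcases mul_eq_zero.mp hfac with h | h
  · exact absurd (sub_eq_zero.mp h).symm hdet
  · exact h

end Fermat.Agent.S59.NMP.H43
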