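import Fermat.Agent.S59.NMP.H43.EigGlue
import Fermat.Agent.S59.NMP.Spec
import Fermat.Agent.S33.Spec2

/-!
# S59 / NMP-LGC — GLUE for a `GaloisRepAdic` with `UnrFrobAt` (helper43)

`eig_glue_h43`: let `ρ : GaloisRepAdic 𝒪` (`𝒪` a local domain, `2 ≠ 0`) with `𝒪[G_ℚ] → End V`
onto, `NMP.UnrFrobAt ρ p α`, determinant ramified at every place over `p`, and let `M ≠ 0` be a
finite free `𝒪`-module with Galois action `ρM` such that

* (REL)  every `g` satisfies on `M` the characteristic polynomial of `ρ g`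
         (shape of `S32.RelStatement`),
* (CORE) for every place `P ∣ p` and every Frobenius element `φ` at `P`,
         `(φ² - b φ + p) M ⊆ S33.augSpan ρM I_P`.

Then `α² - b α + p = 0`, i.e. `b = α + p / α`.
(Frobenius elements exist at every place: hypothesis `hfrob`, on main in several copies.)
-/

set_option autoImplicit false
set_option linter.unusedSectionVars false

noncomputable section

namespace Fermat.Agent.S59.NMP.H43

open Fermat.Agent.S59.NMP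

/-- **GLUE**: Eichler–Shimura at `p` modulo inertia on an eigenmodule gives the quadratic
relation for the unramified Frobenius eigenvalue. -/
theorem eig_glue_h43 {𝒪 : Type} [CommRing 𝒪] [IsDomain 𝒪] [IsLocalRing 𝒪] (h2 : (2 : 𝒪) ≠ 0)
    (ρ : GaloisRepAdic 𝒪) (hspan : Submodule.span 𝒪 (Set.range ρ.ρ) = ⊤)
    (p : ℕ) (α b : 𝒪) (hα : UnrFrobAt ρ p α)
    (hfrob : ∀ P : ValuationSubring (AlgebraicClosure ℚ), P.LiesOverPrime p →
      ∃ φ : AlgebraicClosure ℚ ≃ₐ[ℚ] AlgebraicClosure ℚ, P.IsFrobeniusAt φ p)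
    (hram : ∀ P : ValuationSubring (AlgebraicClosure ℚ), P.LiesOverPrime p →
      ∃ τ₀ ∈ P.inertiaSubgroupIn ℚ, ((ρ.det τ₀ : 𝒪ˣ) : 𝒪) ≠ 1)
    {M : Type} [AddCommGroup M] [Module 𝒪 M] [Module.Free 𝒪 M] [Module.Finite 𝒪 M]
    [Nontrivial M]
    (ρM : (AlgebraicClosure ℚ ≃ₐ[ℚ] AlgebraicClosure ℚ) →* Module.End 𝒪 M)
    (hrel : ∀ g, ρM g * ρM g - ρ.trace g • ρM g
      + ((ρ.det g : 𝒪ˣ) : 𝒪) • (1 : Module.End 𝒪 M) = 0)
    (hcore : ∀ P : ValuationSubring (AlgebraicClosure ℚ), P.LiesOverPrime p →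
      ∀ φ : AlgebraicClosure ℚ ≃ₐ[ℚ] AlgebraicClosure ℚ, P.IsFrobeniusAt φ p → ∀ m : M,
        (ρM φ * ρM φ - b • ρM φ + (p : 𝒪) • (1 : Module.End 𝒪 M)) m ∈
          Fermat.Agent.S33.augSpan ρM (P.inertiaSubgroupIn ℚ)) :
    α ^ 2 - b * α + (p : 𝒪) = 0 := by
  obtain ⟨P, hP, L, ⟨b', hL⟩, -, hIL, hFL⟩ := hα
  obtain ⟨φ, hφ⟩ := hfrob P hP
  obtain ⟨τ₀, hτ₀, hdet⟩ := hram P hP
  subst hL
  have hdet' : ∀ g, LinearMap.det (ρ.ρ g) = ((ρ.det g : 𝒪ˣ) : 𝒪) := fun g => rfl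
  refine eig_glue_abstract_h43 h2 ρ.ρ hspan ρM ?_ (P.inertiaSubgroupIn ℚ) φ α b (p : 𝒪) b'
    hIL (hFL φ hφ) τ₀ hτ₀ ?_ (hcore P hP φ hφ)
  · intro g
    rw [hdet' g]
    exact hrel g
  · rw [hdet' τ₀]
    exact hdet

end Fermat.Agent.S59.NMP.H43
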