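import Fermat.Agent.S59.NMP.H43.LgcDevS33
import Fermat.Prelude.Def_ModularCurve_HeckeModule
import Fermat.Prelude.Def_ModularCurve_ReductionModL

/-!
# S59 / NMP-LGC — CORE from MAXUNR at ONE level (helper43)

`lgcCore_of_maxUnr_h43`: for a level `N`, a place `A`, `p` any natural number, IF

* (MAXUNR at `N`) a `p`-torsion point of `J₀(N)` killed by `reductionModL A N` lies in
  `iAug I_A J₀(N)[p]`                       (= `H135.MaxUnrGoodStatement` at `M = N`),
* (INERTIA) `reductionModL A N (τ • x) = reductionModL A N x` for `τ ∈ I_A`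
  (`S37.H697.reductionModL_inertia`),
* (DIV) `J₀(N)[p^∞]` is `p`-divisible                      (`S17.GDiv.divisible`),
* (ES) `reductionModL A N (σ • σ • x - T_p (σ • x) + p • x) = 0` for all `x`
  (`S37.H697.reductionModL_relation` at `ℓ = p`),

THEN `σ • σ • x - T_p (σ • x) + p • x ∈ iAug I_A J₀(N)[pⁿ]` for every `x ∈ J₀(N)[pⁿ]`
(= the conclusion of `H135.LgcCoreStatement`).   Pure glue on top of `LgcDev`.
`div_of_divisible_h43` turns plain divisibility into (DIV).
-/

set_option autoImplicit false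

noncomputable section

namespace Fermat.Agent.S59.NMP.H43

open ModularCurve Fermat.Agent.S33

/-- Plain `p`-divisibility of a group gives the torsion form (DIV). -/
theorem div_of_divisible_h43 {J : Type*} [AddCommGroup J] (p : ℕ)
    (hdiv : ∀ z : J, ∃ y : J, p • y = z) :
    ∀ (n : ℕ) (z : J), p ^ n • z = 0 → ∃ y : J, p ^ (n + 1) • y = 0 ∧ p • y = z := by
  intro n z hz
  obtain ⟨y, hy⟩ := hdiv z
  refine ⟨y, ?_, hy⟩
  rw [pow_succ, mul_nsmul', hy, hz]

/-- **CORE from MAXUNR** at the level `N` (all other inputs as hypotheses in the shape in which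
they are on main). -/
theorem lgcCore_of_maxUnr_h43 {p N : ℕ} [NeZero N] (hp : p.Prime)
    (A : ValuationSubring (AlgebraicClosure ℚ))
    (hmax : ∀ x : JZero N, p • x = 0 → reductionModL A N x = 0 →
      x ∈ iAug (A.inertiaSubgroupIn ℚ) (torsSub (JZero N) p))
    (hinert : ∀ τ ∈ A.inertiaSubgroupIn ℚ, ∀ x : JZero N,
      reductionModL A N (τ • x) = reductionModL A N x)
    (hdiv : ∀ (n : ℕ) (z : JZero N), p ^ n • z = 0 →
      ∃ y : JZero N, p ^ (n + 1) • y = 0 ∧ p • y = z)
    (σ : AlgebraicClosure ℚ ≃ₐ[ℚ] AlgebraicClosure ℚ)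
    (hrel : ∀ x : JZero N,
      reductionModL A N (σ • σ • x - heckeOperatorBar N ⟨p, hp⟩ (σ • x) + p • x) = 0)
    (n : ℕ) (x : JZero N) (hx : p ^ n • x = 0) :
    σ • σ • x - heckeOperatorBar N ⟨p, hp⟩ (σ • x) + p • x ∈
      iAug (A.inertiaSubgroupIn ℚ) (torsSub (JZero N) (p ^ n)) := by
  have h := core_of_frob_s33_h43 (A.inertiaSubgroupIn ℚ) (reductionModL A N).ker p
    (fun τ hτ y => by
      rw [AddMonoidHom.mem_ker, map_sub, hinert τ hτ y, sub_self])
    hdiv
    (fun y hy => hmax y ((mem_torsSub_iff_h43 p y).mp hy.2) (AddMonoidHom.mem_ker.mp hy.1))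
    (DistribSMul.toAddMonoidHom (JZero N) σ)
    ((heckeOperatorBar N ⟨p, hp⟩ : JZero N →ₗ[ℤ] JZero N).toAddMonoidHom)
    (fun y => AddMonoidHom.mem_ker.mpr (hrel y)) n x ((mem_torsSub_iff_h43 _ x).mpr hx)
  exact h

end Fermat.Agent.S59.NMP.H43
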