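import Mathlib

/-!
# S59 / NMP-LGC — the dévissage step DEV (helper43), Mathlib only

Abstract setting: a group `G` acting on an abelian group `J` (think `J = J₀(N)(ℚ̄)`), a subgroup
`I ≤ G` (inertia at a place over `p`), a subgroup `K ≤ J` (the kernel of the specialisation map)
such that

* `haug` : `σ • y - y ∈ K` for `σ ∈ I` (inertia acts trivially on the special fibre),
* `hdiv` : every `p ^ n`-torsion point is `p` times a `p ^ (n + 1)`-torsion point,
* `h1`   : (MAXUNR) a `p`-torsion point of `K` lies in the augmentation subgroup of `J[p]`.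

Then `K ∩ J[p ^ n]` is contained in the augmentation subgroup of `J[p ^ n]` for every `n`
(`redKer_le_iAug_h43`), and every relation `c x ∈ K` valid on `J` (Eichler–Shimura at `p`:
`c = φ² - T_p φ + p`) takes values in the augmentation subgroup on `J[p ^ n]`
(`core_of_es_h43`).

The augmentation subgroup is written unfolded:
`AddSubgroup.closure {z | ∃ σ ∈ I, ∃ y, p ^ n • y = 0 ∧ z = σ • y - y}`
(`= Fermat.Agent.S33.iAug I (Fermat.Agent.S33.torsSub J (p ^ n))`, see `augSet_eq_h43`-style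
unfolding in the consumer).
-/

set_option autoImplicit false

namespace Fermat.Agent.S59.NMP.H43

variable {G J : Type*} [Group G] [AddCommGroup J] [DistribMulAction G J]

/-- The generators of the augmentation subgroup of `J[m]`. -/
def augGen_h43 (I : Subgroup G) (J : Type*) [AddCommGroup J] [DistribMulAction G J] (m : ℕ) :
    Set J :=
  {z | ∃ σ ∈ I, ∃ y : J, m • y = 0 ∧ z = σ • y - y}

/-- The augmentation subgroup of `J[m]`:  `⟨σ • y - y : σ ∈ I, m • y = 0⟩`. -/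
def augSub_h43 (I : Subgroup G) (J : Type*) [AddCommGroup J] [DistribMulAction G J] (m : ℕ) :
    AddSubgroup J :=
  AddSubgroup.closure (augGen_h43 I J m)

theorem augSub_h43_mono (I : Subgroup G) {m m' : ℕ} (h : m ∣ m') :
    augSub_h43 I J m ≤ augSub_h43 I J m' := by
  apply AddSubgroup.closure_mono
  rintro z ⟨σ, hσ, y, hy, rfl⟩
  obtain ⟨c, rfl⟩ := h
  refine ⟨σ, hσ, y, ?_, rfl⟩
  rw [mul_nsmul, hy, nsmul_zero]

theorem augSub_h43_le (I : Subgroup G) (K : AddSubgroup J)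
    (haug : ∀ σ ∈ I, ∀ y : J, σ • y - y ∈ K) (m : ℕ) : augSub_h43 I J m ≤ K := by
  rw [augSub_h43, AddSubgroup.closure_le]
  rintro z ⟨σ, hσ, y, -, rfl⟩
  exact haug σ hσ y

/-- Elements of the augmentation subgroup of `J[m]` are `m`-torsion. -/
theorem nsmul_eq_zero_of_mem_augSub_h43 (I : Subgroup G) (m : ℕ) {z : J}
    (hz : z ∈ augSub_h43 I J m) : m • z = 0 := by
  induction hz using AddSubgroup.closure_induction with
  | mem z hz =>
    obtain ⟨σ, -, y, hy, rfl⟩ := hz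
    rw [nsmul_sub, ← smul_comm σ m y, hy, smul_zero, sub_zero]
  | zero => exact nsmul_zero _
  | add a b _ _ ha hb => rw [nsmul_add, ha, hb, add_zero]
  | neg a _ ha => rw [smul_neg, ha, neg_zero]

/-- Lifting along multiplication by `p`: `p • augSub J[p ^ (n+1)] ⊇ augSub J[p ^ n]`. -/
theorem exists_nsmul_eq_of_mem_augSub_h43 (I : Subgroup G) (p : ℕ)
    (hdiv : ∀ (n : ℕ) (z : J), p ^ n • z = 0 → ∃ y : J, p ^ (n + 1) • y = 0 ∧ p • y = z)
    (n : ℕ) {z : J} (hz : z ∈ augSub_h43 I J (p ^ n)) :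
    ∃ w ∈ augSub_h43 I J (p ^ (n + 1)), p • w = z := by
  induction hz using AddSubgroup.closure_induction with
  | mem z hz =>
    obtain ⟨σ, hσ, y, hy, rfl⟩ := hz
    obtain ⟨y', hy', hpy⟩ := hdiv n y hy
    refine ⟨σ • y' - y', AddSubgroup.subset_closure ⟨σ, hσ, y', hy', rfl⟩, ?_⟩
    rw [nsmul_sub, ← smul_comm σ p y', hpy]
  | zero => exact ⟨0, AddSubgroup.zero_mem _, nsmul_zero _⟩
  | add a b _ _ ha hb =>
    obtain ⟨wa, hwa, rfl⟩ := ha
    obtain ⟨wb, hwb, rfl⟩ := hb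
    exact ⟨wa + wb, AddSubgroup.add_mem _ hwa hwb, nsmul_add _ _ _⟩
  | neg a _ ha =>
    obtain ⟨wa, hwa, rfl⟩ := ha
    refine ⟨-wa, AddSubgroup.neg_mem _ hwa, ?_⟩
    rw [smul_neg]

/-- **DEV.**  If the `p`-torsion of the kernel of reduction `K` lies in the augmentation
subgroup of `J[p]` (MAXUNR), inertia acts trivially modulo `K`, and `J[p^∞]` is `p`-divisible,
then `K ∩ J[p ^ n] ≤ I_aug J[p ^ n]` for every `n`. -/
theorem redKer_le_iAug_h43 (I : Subgroup G) (K : AddSubgroup J) (p : ℕ)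
    (haug : ∀ σ ∈ I, ∀ y : J, σ • y - y ∈ K)
    (hdiv : ∀ (n : ℕ) (z : J), p ^ n • z = 0 → ∃ y : J, p ^ (n + 1) • y = 0 ∧ p • y = z)
    (h1 : ∀ x ∈ K, p • x = 0 → x ∈ augSub_h43 I J p) :
    ∀ (n : ℕ) (x : J), x ∈ K → p ^ n • x = 0 → x ∈ augSub_h43 I J (p ^ n) := by
  intro n
  induction n with
  | zero =>
    intro x _ hx
    rw [pow_zero, one_nsmul] at hx
    rw [hx]
    exact AddSubgroup.zero_mem _
  | succ n ih =>
    intro x hxK hx
    have hz : p ^ n • (p • x) = 0 := by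
      rw [← mul_nsmul, mul_comm, ← pow_succ]
      exact hx
    have hzK : p • x ∈ K := AddSubgroup.nsmul_mem K hxK p
    obtain ⟨w, hw, hpw⟩ := exists_nsmul_eq_of_mem_augSub_h43 I p hdiv n (ih (p • x) hzK hz)
    have hwK : w ∈ K := augSub_h43_le I K haug _ hw
    have hxw : x - w ∈ augSub_h43 I J p :=
      h1 (x - w) (AddSubgroup.sub_mem K hxK hwK) (by rw [nsmul_sub, hpw, sub_self])
    have hle : augSub_h43 I J p ≤ augSub_h43 I J (p ^ (n + 1)) :=
      augSub_h43_mono I (dvd_pow_self p (Nat.succ_ne_zero n))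
    have := AddSubgroup.add_mem _ (hle hxw) hw
    rwa [sub_add_cancel] at this

/-- **CORE from DEV.**  If `c : J →+ J` takes values in the kernel of reduction `K`
(Eichler–Shimura at `p`: `c = φ² - T_p φ + p`), then on `J[p ^ n]` it takes values in the
augmentation subgroup of `J[p ^ n]`. -/
theorem core_of_es_h43 (I : Subgroup G) (K : AddSubgroup J) (p : ℕ)
    (haug : ∀ σ ∈ I, ∀ y : J, σ • y - y ∈ K)
    (hdiv : ∀ (n : ℕ) (z : J), p ^ n • z = 0 → ∃ y : J, p ^ (n + 1) • y = 0 ∧ p • y = z)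
    (h1 : ∀ x ∈ K, p • x = 0 → x ∈ augSub_h43 I J p)
    (c : J →+ J) (hc : ∀ x : J, c x ∈ K) (n : ℕ) (x : J) (hx : p ^ n • x = 0) :
    c x ∈ augSub_h43 I J (p ^ n) :=
  redKer_le_iAug_h43 I K p haug hdiv h1 n (c x) (hc x) (by rw [← map_nsmul, hx, map_zero])

/-- The Eichler–Shimura shape: `c = φ ∘ φ - t ∘ φ + p`. -/
theorem core_of_frob_h43 (I : Subgroup G) (K : AddSubgroup J) (p : ℕ)
    (haug : ∀ σ ∈ I, ∀ y : J, σ • y - y ∈ K)
    (hdiv : ∀ (n : ℕ) (z : J), p ^ n • z = 0 → ∃ y : J, p ^ (n + 1) • y = 0 ∧ p • y = z)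
    (h1 : ∀ x ∈ K, p • x = 0 → x ∈ augSub_h43 I J p)
    (φ t : J →+ J) (hes : ∀ x : J, φ (φ x) - t (φ x) + p • x ∈ K)
    (n : ℕ) (x : J) (hx : p ^ n • x = 0) :
    φ (φ x) - t (φ x) + p • x ∈ augSub_h43 I J (p ^ n) := by
  have h := core_of_es_h43 I K p haug hdiv h1
    (φ.comp φ - t.comp φ + nsmulAddMonoidHom (α := J) p) (fun x => by simpa using hes x) n x hx
  simpa using h

end Fermat.Agent.S59.NMP.H43
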