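import Fermat.Agent.S59.NMP.H43.LgcDev
import Fermat.Agent.S33.Spec2

/-!
# S59 / NMP-LGC — DEV in the vocabulary of `S33/Spec2.lean` (helper43)

`iAug I (torsSub J (p ^ n))` instead of the unfolded `augSub_h43`.

* `augSub_eq_iAug_h43`   : `augSub_h43 I J m = S33.iAug I (S33.torsSub J m)`.
* `redKer_le_iAug_s33_h43` (DEV) : MAXUNR at level `p` + divisibility ⟹
  `K ⊓ J[p ^ n] ≤ iAug I J[p ^ n]` for all `n`.
* `core_of_frob_s33_h43` (CORE) : `(φ² - t φ + p) J[p ^ n] ⊆ iAug I J[p ^ n]` from the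
  Eichler–Shimura relation modulo `K`.
-/

set_option autoImplicit false

namespace Fermat.Agent.S59.NMP.H43

open Fermat.Agent.S33

variable {G J : Type*} [Group G] [AddCommGroup J] [DistribMulAction G J]

theorem mem_torsSub_iff_h43 (m : ℕ) (y : J) : y ∈ torsSub J m ↔ m • y = 0 := by
  simp [torsSub, AddMonoidHom.mem_ker]

theorem augSub_eq_iAug_h43 (I : Subgroup G) (m : ℕ) :
    augSub_h43 I J m = iAug I (torsSub J m) := by
  unfold augSub_h43 augGen_h43 iAug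
  congr 1

/-- **DEV**, S33 vocabulary. -/
theorem redKer_le_iAug_s33_h43 (I : Subgroup G) (K : AddSubgroup J) (p : ℕ)
    (haug : ∀ σ ∈ I, ∀ y : J, σ • y - y ∈ K)
    (hdiv : ∀ (n : ℕ) (z : J), p ^ n • z = 0 → ∃ y : J, p ^ (n + 1) • y = 0 ∧ p • y = z)
    (h1 : K ⊓ torsSub J p ≤ iAug I (torsSub J p)) (n : ℕ) :
    K ⊓ torsSub J (p ^ n) ≤ iAug I (torsSub J (p ^ n)) := by
  rintro x ⟨hxK, hx⟩
  rw [← augSub_eq_iAug_h43]
  refine redKer_le_iAug_h43 I K p haug hdiv ?_ n x hxK ((mem_torsSub_iff_h43 _ x).mp hx)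
  intro y hyK hy
  rw [augSub_eq_iAug_h43]
  exact h1 ⟨hyK, (mem_torsSub_iff_h43 p y).mpr hy⟩

/-- **CORE**, S33 vocabulary: the Eichler–Shimura relation modulo the kernel of reduction gives
`(φ² - t φ + p) J[p ^ n] ⊆ iAug I J[p ^ n]`. -/
theorem core_of_frob_s33_h43 (I : Subgroup G) (K : AddSubgroup J) (p : ℕ)
    (haug : ∀ σ ∈ I, ∀ y : J, σ • y - y ∈ K)
    (hdiv : ∀ (n : ℕ) (z : J), p ^ n • z = 0 → ∃ y : J, p ^ (n + 1) • y = 0 ∧ p • y = z)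
    (h1 : K ⊓ torsSub J p ≤ iAug I (torsSub J p))
    (φ t : J →+ J) (hes : ∀ x : J, φ (φ x) - t (φ x) + p • x ∈ K)
    (n : ℕ) (x : J) (hx : x ∈ torsSub J (p ^ n)) :
    φ (φ x) - t (φ x) + p • x ∈ iAug I (torsSub J (p ^ n)) := by
  rw [← augSub_eq_iAug_h43]
  refine core_of_frob_h43 I K p haug hdiv ?_ φ t hes n x ((mem_torsSub_iff_h43 _ x).mp hx)
  intro y hyK hy
  rw [augSub_eq_iAug_h43]
  exact h1 ⟨hyK, (mem_torsSub_iff_h43 p y).mpr hy⟩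

end Fermat.Agent.S59.NMP.H43
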